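import Fermat.Agent.Auto.Petersson.Domain
import Fermat.Agent.NewVec.Hecke
import Fermat.Agent.Newform.Slash
import Fermat.Prelude.Def_CuspForm_HeckeAlgebra
import Mathlib.NumberTheory.ModularForms.Petersson

/-!
The Petersson product on `S₂(Γ₀(N))`; the good Hecke operators are self-adjoint for it.
-/

set_option autoImplicit false

noncomputable section

namespace Fermat.Agent.Auto.Pet

open UpperHalfPlane MeasureTheory Set CongruenceSubgroup
open Fermat.Agent.Newform (intGL slash_intGL_coe slash_Gamma0 mem_Gamma0_iff_dvd val_intGL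
  intGL_mul intGL_coe σ_intGL repGL_eq_intGL)
open Fermat.Agent.GalRep (IMat heckeRep repGL)
open ModularForm (heckeDiagMatrix)
open scoped MatrixGroups Pointwise Modular ModularForm ComplexConjugate

theorem neg_one_mem_Gamma0 (N : ℕ) : (-1 : SL(2, ℤ)) ∈ Gamma0 N :=
  mem_Gamma0_iff_dvd.mpr (by simp)

/-- A fundamental domain of `Γ₀(N)`. -/
def dom (N : ℕ) : Set ℍ :=
  ⋃ q : SL(2, ℤ) ⧸ Gamma0 N, (fun τ : ℍ => q.out⁻¹ • τ) '' 𝒟ᵒ

variable (N : ℕ) [NeZero N]

theorem isFundamentalDomain_dom :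
    IsFundamentalDomain (pGroup (Gamma0 N)) (dom N) (volume : Measure ℍ) := by
  refine (isFundamentalDomain_iUnion le_top (neg_one_mem_Gamma0 N) isFundamentalDomain_fdo
    _ (fun _ => trivial) fun g _ => ⟨(g : SL(2, ℤ) ⧸ Gamma0 N), ?_, fun q hq => ?_⟩).1
  · obtain ⟨h, hh⟩ := QuotientGroup.mk_out_eq_mul (Gamma0 N) g
    show _⁻¹ * g ∈ _
    rw [hh, mul_inv_rev, inv_mul_cancel_right]
    exact inv_mem h.2
  · rw [← QuotientGroup.out_eq' q]
    exact QuotientGroup.eq.mpr hq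

theorem volume_image_smul (g : SL(2, ℤ)) (s : Set ℍ) :
    volume ((fun τ : ℍ => g • τ) '' s) = volume s :=
  measure_smul (volume : Measure ℍ) (g : GL (Fin 2) ℝ) s

theorem volume_dom_lt_top : volume (dom N) < ⊤ := by
  haveI : Fintype (SL(2, ℤ) ⧸ Gamma0 N) := Fintype.ofFinite _
  refine lt_of_le_of_lt (measure_iUnion_fintype_le _ _) (ENNReal.sum_lt_top.mpr fun q _ => ?_)
  rw [volume_image_smul]
  exact volume_fdo_lt_top

variable {N}

theorem exists_bound_petersson {M : ℕ} [NeZero M] (f : CuspForm (Gamma0 N) 2)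
    (g : CuspForm (Gamma0 M) 2) : ∃ C, ∀ τ, ‖petersson 2 f g τ‖ ≤ C := by
  obtain ⟨a, ha⟩ := NewVec.exists_max_hNorm f
  obtain ⟨b, hb⟩ := NewVec.exists_max_hNorm g
  refine ⟨NewVec.hNorm f a * NewVec.hNorm g b, fun τ => ?_⟩
  refine le_of_eq_of_le ?_ (mul_le_mul (ha τ) (hb τ)
    (mul_nonneg (norm_nonneg _) τ.im_pos.le) (mul_nonneg (norm_nonneg _) a.im_pos.le))
  simp [petersson, NewVec.hNorm, abs_of_pos τ.im_pos]
  ring

theorem continuous_form {M : ℕ} (f : CuspForm (Gamma0 M) 2) : Continuous (⇑f : ℍ → ℂ) :=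
  (CuspFormClass.holo f).continuous

theorem integrableOn_petersson {M : ℕ} [NeZero M] (f : CuspForm (Gamma0 N) 2)
    (g : CuspForm (Gamma0 M) 2) {s : Set ℍ} (hs : volume s < ⊤) :
    IntegrableOn (petersson 2 f g) s := by
  obtain ⟨C, hC⟩ := exists_bound_petersson f g
  exact IntegrableOn.of_bound hs
    (petersson_continuous 2 (continuous_form f) (continuous_form g)).aestronglyMeasurable C
    (Filter.Eventually.of_forall hC)

/-- The Petersson product. -/
def pet (f g : CuspForm (Gamma0 N) 2) : ℂ := ∫ τ in dom N, petersson 2 f g τ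

theorem pet_symm (f g : CuspForm (Gamma0 N) 2) : pet g f = conj (pet f g) := by
  rw [pet, pet, ← integral_conj]
  simp only [petersson_symm 2 (⇑f) (⇑g)]

theorem pet_add_left (f f' g : CuspForm (Gamma0 N) 2) :
    pet (f + f') g = pet f g + pet f' g := by
  rw [pet, pet, pet, ← integral_add (integrableOn_petersson f g (volume_dom_lt_top N))
    (integrableOn_petersson f' g (volume_dom_lt_top N))]
  congr 1
  ext τ
  simp [petersson, add_mul]

theorem pet_add_right (f g g' : CuspForm (Gamma0 N) 2) :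
    pet f (g + g') = pet f g + pet f g' := by
  rw [pet_symm (g + g') f, pet_add_left, map_add, ← pet_symm, ← pet_symm]

theorem pet_smul_int (n : ℤ) (f g : CuspForm (Gamma0 N) 2) :
    pet (n • f) g = pet f (n • g) := by
  rw [pet, pet]
  congr 1
  ext τ
  simp only [petersson, CuspForm.coe_smul, Pi.smul_apply, zsmul_eq_mul, map_mul, map_intCast]
  ring

theorem eq_zero_of_pet_self (f : CuspForm (Gamma0 N) 2) (h : pet f f = 0) : f = 0 := by
  set φ : ℍ → ℝ := fun τ => NewVec.hNorm f τ ^ 2 with hφ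
  have hP : petersson 2 f f = fun τ => (φ τ : ℂ) := by
    ext τ
    simp [petersson, hφ, NewVec.hNorm, mul_pow, ← Complex.normSq_eq_conj_mul_self,
      Complex.normSq_eq_norm_sq]
  rw [pet, hP, integral_complex_ofReal, Complex.ofReal_eq_zero] at h
  have hint : IntegrableOn φ (dom N) := by
    have := (integrableOn_petersson f f (volume_dom_lt_top N)).re
    simpa [hP] using! this
  have hae := (setIntegral_eq_zero_iff_of_nonneg_ae
    (Filter.Eventually.of_forall fun τ => sq_nonneg _) hint).mp h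
  have hcont : Continuous φ :=
    ((continuous_form f).norm.mul UpperHalfPlane.continuous_im).pow 2
  have hopen : IsOpen (dom N) := isOpen_iUnion fun q =>
    (Homeomorph.smul ((q.out⁻¹ : SL(2, ℤ)) : GL (Fin 2) ℝ)).isOpenMap _ ModularGroup.isOpen_fdo
  have hz : EqOn φ 0 (dom N) :=
    Measure.eqOn_open_of_ae_eq hae hopen hcont.continuousOn continuousOn_const
  refine DFunLike.coe_injective (funext fun τ => ?_)
  obtain ⟨g, hg⟩ := ModularGroup.exists_smul_mem_fd τ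
  obtain ⟨γ, hγ⟩ := QuotientGroup.mk_out_eq_mul (Gamma0 N) g
  set δ : SL(2, ℤ) := (g : SL(2, ℤ) ⧸ Gamma0 N).out⁻¹
  have h0 : φ (δ • g • τ) = 0 := by
    have hcl : 𝒟 ⊆ (fun x : ℍ => φ (δ • x)) ⁻¹' {0} := by
      rw [ModularGroup.fd_eq_closure_fdo]
      refine closure_minimal (fun x hx => hz (mem_iUnion.mpr ⟨_, x, hx, rfl⟩))
        (isClosed_singleton.preimage ?_)
      exact hcont.comp (Homeomorph.smul ((δ : SL(2, ℤ)) : GL (Fin 2) ℝ)).continuous
    exact hcl hg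
  have e : δ • g • τ = ((γ⁻¹ : Gamma0 N) : SL(2, ℤ)) • τ := by
    rw [← mul_smul]
    congr 1
    simp only [δ, hγ, Subgroup.coe_inv]
    group
  rw [e] at h0
  have h1 : NewVec.hNorm f τ = 0 :=
    (NewVec.hNorm_smul f (γ⁻¹).2 τ).symm.trans ((pow_eq_zero_iff two_ne_zero).mp h0)
  simpa [NewVec.hNorm, τ.im_ne_zero] using h1

/-! ### Self-adjointness -/

/-- Data attached to a good prime: a matrix `ρ₀ ∈ Γ₀(N)` with bottom row `(N, ℓ)`. -/
theorem exists_uv {ℓ : ℕ} (hℓ : ℓ.Prime) (hℓN : ¬ ℓ ∣ N) :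
    ∃ u v : ℤ, u * ℓ - v * N = 1 := by
  obtain ⟨a, b, h⟩ := Int.isCoprime_iff_gcd_eq_one.mpr
    (show Int.gcd (ℓ : ℤ) (N : ℤ) = 1 from (hℓ.coprime_iff_not_dvd.mpr hℓN))
  exact ⟨a, -b, by linear_combination h⟩

theorem exists_reps {ℓ : ℕ} (hℓ : ℓ.Prime) (hℓN : ¬ ℓ ∣ N) :
    ∃ ρ : Option (Fin ℓ) → SL(2, ℤ), (∀ i, ρ i ∈ Gamma0 N) ∧
      (∀ g ∈ Gamma0 N, ∃! i, ρ i * g ∈ Gamma0 (N * ℓ)) ∧
      ∀ (f : CuspForm (Gamma0 N) 2) i,
        (⇑f ∣[(2 : ℤ)] heckeDiagMatrix ℓ) ∣[(2 : ℤ)] ρ i = ⇑f ∣[(2 : ℤ)] repGL ℓ i := by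
  haveI : Fact ℓ.Prime := ⟨hℓ⟩
  obtain ⟨u, v, huv⟩ := exists_uv hℓ hℓN
  let r : Fin ℓ → SL(2, ℤ) := fun j => ⟨!![u, u * j + v; (N : ℤ), N * j + ℓ], by
    rw [Matrix.det_fin_two_of]; linear_combination huv⟩
  let ρ : Option (Fin ℓ) → SL(2, ℤ) := fun i => i.elim 1 r
  let γ₀ : SL(2, ℤ) := ⟨!![ℓ * u, v; (N : ℤ), 1], by
    rw [Matrix.det_fin_two_of]; linear_combination huv⟩
  have hr : ∀ j, r j ∈ Gamma0 N := fun j => mem_Gamma0_iff_dvd.mpr (by simp [r])
  refine ⟨ρ, fun i => ?_, fun g hg => ?_, fun f i => ?_⟩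
  · cases i with
    | none => exact one_mem _
    | some j => exact hr j
  · obtain ⟨c, hc⟩ := mem_Gamma0_iff_dvd.mp hg
    have hN0 : (N : ℤ) ≠ 0 := Int.natCast_ne_zero.mpr (NeZero.ne N)
    have hNℓ : (N : ZMod ℓ) ≠ 0 := fun h => hℓN ((ZMod.natCast_eq_zero_iff _ _).mp h)
    have hdet := g.det_coe
    rw [Matrix.det_fin_two, hc] at hdet
    set a := (g : IMat) 0 0
    have key : ∀ i, ρ i * g ∈ Gamma0 (N * ℓ) ↔
        ((i.elim (c : ZMod ℓ) fun j => (a : ZMod ℓ) + N * (j : ℕ) * c) = 0) := by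
      intro i
      rw [mem_Gamma0_iff_dvd, Matrix.SpecialLinearGroup.coe_mul, Nat.cast_mul]
      cases i with
      | none =>
        simp only [ρ, Option.elim, Matrix.SpecialLinearGroup.coe_one, one_mul, hc]
        rw [mul_dvd_mul_iff_left hN0, ZMod.intCast_zmod_eq_zero_iff_dvd]
      | some j =>
        have e : ((r j : IMat) * (g : IMat)) 1 0 = N * (a + (N * (j : ℕ) + ℓ) * c) := by
          simp [r, Matrix.mul_apply, Fin.sum_univ_two, hc, a]
          ring
        simp only [ρ, Option.elim, e]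
        rw [mul_dvd_mul_iff_left hN0, ← ZMod.intCast_zmod_eq_zero_iff_dvd]
        push_cast
        simp
    simp only [key]
    by_cases hc0 : (c : ZMod ℓ) = 0
    · refine ⟨none, hc0, fun i hi => ?_⟩
      cases i with
      | none => rfl
      | some j =>
        exfalso
        simp only [Option.elim, hc0, mul_zero, add_zero] at hi
        have := congrArg (fun n : ℤ => (n : ZMod ℓ)) hdet
        push_cast at this
        simp [hc0, hi] at this
    · refine ⟨some ⟨(-(a : ZMod ℓ) / (N * c)).val, ZMod.val_lt _⟩, ?_, fun i hi => ?_⟩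
      · simp only [Option.elim, ZMod.natCast_zmod_val]
        field_simp
        ring
      · cases i with
        | none => exact absurd hi hc0
        | some j =>
          simp only [Option.elim] at hi
          have e : ((j : ℕ) : ZMod ℓ) = -(a : ZMod ℓ) / (N * c) := by
            rw [eq_div_iff (mul_ne_zero hNℓ hc0)]
            linear_combination hi
          congr 1
          apply Fin.ext
          exact (Nat.mod_eq_of_lt j.isLt).symm.trans
            ((ZMod.val_natCast _ _).symm.trans (congrArg ZMod.val e))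
  · rw [ModularForm.SL_slash, ← SlashAction.slash_mul]
    cases i with
    | none => simp only [ρ, Option.elim, map_one, mul_one]; rfl
    | some j =>
      have hd : (!![(ℓ : ℤ), 0; 0, 1] : IMat).det ≠ 0 := by
        simp [Matrix.det_fin_two, hℓ.ne_zero]
      have h1 : (γ₀ : IMat).det ≠ 0 := by rw [γ₀.det_coe]; exact one_ne_zero
      have h2 : (heckeRep ℓ (some j)).det ≠ 0 := by
        rw [GalRep.det_heckeRep]; exact_mod_cast hℓ.ne_zero
      have e : (!![(ℓ : ℤ), 0; 0, 1] : IMat) * (r j : IMat) = (γ₀ : IMat) * heckeRep ℓ (some j) := by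
        ext a b
        fin_cases a <;> fin_cases b <;>
          simp [r, γ₀, heckeRep, Matrix.mul_apply, Fin.sum_univ_two] <;> ring
      simp only [ρ, Option.elim]
      rw [Newform.heckeDiagMatrix_eq_intGL hℓ.ne_zero]
      show ⇑f ∣[(2 : ℤ)] (intGL !![(ℓ : ℤ), 0; 0, 1] * Matrix.SpecialLinearGroup.mapGL ℝ (r j)) = _
      rw [← intGL_coe, ← intGL_mul hd (by rw [(r j).det_coe]; exact one_ne_zero), e,
        intGL_mul h1 h2, SlashAction.slash_mul, slash_intGL_coe,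
        slash_Gamma0 f (mem_Gamma0_iff_dvd.mpr (by simp [γ₀])), repGL_eq_intGL hℓ.ne_zero]

theorem intGL_smul_slash {ℓ : ℕ} (hℓ : ℓ ≠ 0) (F : ℍ → ℂ) :
    F ∣[(2 : ℤ)] intGL (!![(ℓ : ℤ), 0; 0, (ℓ : ℤ)] : IMat) = F := by
  have hd : (!![(ℓ : ℤ), 0; 0, (ℓ : ℤ)] : IMat).det ≠ 0 := by simp [hℓ]
  have hpos : 0 < (!![(ℓ : ℤ), 0; 0, (ℓ : ℤ)] : IMat).det := by
    have : (ℓ : ℤ) ≠ 0 := Int.natCast_ne_zero.mpr hℓ
    simpa [Matrix.det_fin_two_of] using mul_self_pos.mpr this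
  ext τ
  rw [ModularForm.slash_apply, σ_intGL hpos, ContinuousAlgEquiv.refl_apply]
  have hv := val_intGL hd
  have hs : intGL (!![(ℓ : ℤ), 0; 0, (ℓ : ℤ)] : IMat) • τ = τ := by
    apply UpperHalfPlane.ext
    rw [UpperHalfPlane.coe_smul_of_det_pos (Newform.det_intGL_pos hpos)]
    simp [UpperHalfPlane.num, UpperHalfPlane.denom, hv, hℓ]
  rw [hs, Matrix.GeneralLinearGroup.val_det_apply, hv]
  simp [UpperHalfPlane.denom, hv, Matrix.det_fin_two]
  field_simp

theorem exists_conj {N ℓ : ℕ} {u v : ℤ} (huv : u * ℓ - v * N = 1) (hℓ : ℓ ≠ 0) :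
    ∀ γ ∈ Gamma0 (N * ℓ),
      (∃ γ' ∈ Gamma0 (N * ℓ), ∀ τ : ℍ, intGL !![(ℓ : ℤ) * u, v; ℓ * N, ℓ] • γ • τ =
        γ' • intGL !![(ℓ : ℤ) * u, v; ℓ * N, ℓ] • τ) ∧
      (∃ γ' ∈ Gamma0 (N * ℓ), ∀ τ : ℍ, γ • intGL !![(ℓ : ℤ) * u, v; ℓ * N, ℓ] • τ =
        intGL !![(ℓ : ℤ) * u, v; ℓ * N, ℓ] • γ' • τ) := by
  set W : IMat := !![(ℓ : ℤ) * u, v; ℓ * N, ℓ] with hW
  have hWdet : W.det = ℓ := by
    rw [hW, Matrix.det_fin_two_of]; linear_combination (ℓ : ℤ) * huv
  have hd : W.det ≠ 0 := by rw [hWdet]; exact_mod_cast hℓ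
  have act_eq : ∀ (a b : SL(2, ℤ)), W * (a : IMat) = (b : IMat) * W →
      ∀ τ : ℍ, intGL W • a • τ = b • intGL W • τ := by
    intro a b h τ
    show intGL W • (a : GL (Fin 2) ℝ) • τ = (b : GL (Fin 2) ℝ) • intGL W • τ
    rw [smul_smul, smul_smul]
    congr 1
    show intGL W * Matrix.SpecialLinearGroup.mapGL ℝ a =
      Matrix.SpecialLinearGroup.mapGL ℝ b * intGL W
    rw [← intGL_coe, ← intGL_coe, ← intGL_mul hd (by rw [a.det_coe]; exact one_ne_zero), h,
      intGL_mul (by rw [b.det_coe]; exact one_ne_zero) hd]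
  intro γ hγ
  obtain ⟨c, hc⟩ := mem_Gamma0_iff_dvd.mp hγ
  push_cast at hc
  set a := (γ : IMat) 0 0
  set b := (γ : IMat) 0 1
  set d := (γ : IMat) 1 1
  constructor
  · set A : IMat := !![ℓ * (u * a + v * N * c) - N * (ℓ * u * b + v * d),
      -v * (u * a + v * N * c) + u * (ℓ * u * b + v * d);
      N * ℓ * (a + ℓ * c - N * b - d), -v * N * (a + ℓ * c) + ℓ * u * (N * b + d)] with hA
    have hmul : W * (γ : IMat) = A * W := by
      ext i j
      fin_cases i <;> fin_cases j <;>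
        simp [hA, hW, Matrix.mul_apply, Fin.sum_univ_two, a, b, d, hc]
      · linear_combination (-(ℓ : ℤ) * u * a - v * N * ℓ * c) * huv
      · linear_combination (-(ℓ : ℤ) * u * b - v * d) * huv
      · linear_combination (-(ℓ : ℤ) * N * a - ℓ * ℓ * N * c) * huv
      · linear_combination (-(ℓ : ℤ) * N * b - ℓ * d) * huv
    have hdet : A.det = 1 := by
      have := congrArg Matrix.det hmul
      rw [Matrix.det_mul, Matrix.det_mul, γ.det_coe, mul_one] at this
      exact mul_right_cancel₀ hd (by rw [one_mul]; exact this.symm)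
    exact ⟨⟨A, hdet⟩, mem_Gamma0_iff_dvd.mpr (by simp [hA]),
      act_eq γ ⟨A, hdet⟩ hmul⟩
  · set A : IMat := !![u * (ℓ * a - v * N * ℓ * c) + N * (ℓ * b - v * d),
      v * (a - v * N * c) + (ℓ * b - v * d);
      N * ℓ * (-u * a + ℓ * u * u * c - N * b + u * d),
      v * (-N * a + ℓ * u * N * c) + (-(ℓ : ℤ) * N * b + ℓ * u * d)] with hA
    have hmul : (γ : IMat) * W = W * A := by
      ext i j
      fin_cases i <;> fin_cases j <;>
        simp [hA, hW, Matrix.mul_apply, Fin.sum_univ_two, a, b, d, hc]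
      · linear_combination (-(ℓ : ℤ) * u * a - ℓ * N * b) * huv
      · linear_combination (-v * a - ℓ * b) * huv
      · linear_combination (-(ℓ : ℤ) * ℓ * u * N * c - ℓ * N * d) * huv
      · linear_combination (-v * ℓ * N * c - ℓ * d) * huv
    have hdet : A.det = 1 := by
      have := congrArg Matrix.det hmul
      rw [Matrix.det_mul, Matrix.det_mul, γ.det_coe, one_mul] at this
      exact mul_left_cancel₀ hd (by rw [mul_one]; exact this.symm)
    exact ⟨⟨A, hdet⟩, mem_Gamma0_iff_dvd.mpr (by simp [hA]),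
      fun τ => (act_eq ⟨A, hdet⟩ γ hmul.symm τ).symm⟩

theorem isFundamentalDomain_image {Γ : Subgroup SL(2, ℤ)} {s : Set ℍ}
    (hs : IsFundamentalDomain (pGroup Γ) s volume) (w : GL (Fin 2) ℝ)
    (hw : ∀ γ ∈ Γ, (∃ γ' ∈ Γ, ∀ τ : ℍ, w • γ • τ = γ' • w • τ) ∧
      (∃ γ' ∈ Γ, ∀ τ : ℍ, γ • w • τ = w • γ' • τ)) :
    IsFundamentalDomain (pGroup Γ) ((fun τ : ℍ => w • τ) '' s) volume := by
  set p : Equiv.Perm ℍ := MulAction.toPerm w
  have h1 : ∀ h ∈ pGroup Γ, p⁻¹ * h * p ∈ pGroup Γ := by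
    rintro _ ⟨γ, hγ, rfl⟩
    obtain ⟨-, γ', hγ', e⟩ := hw γ hγ
    refine ⟨γ', hγ', ?_⟩
    rw [mul_assoc, eq_inv_mul_iff_mul_eq]
    exact Equiv.ext fun τ => (e τ).symm
  have h2 : ∀ h ∈ pGroup Γ, p * h * p⁻¹ ∈ pGroup Γ := by
    rintro _ ⟨γ, hγ, rfl⟩
    obtain ⟨⟨γ', hγ', e⟩, -⟩ := hw γ hγ
    refine ⟨γ', hγ', ?_⟩
    rw [eq_mul_inv_iff_mul_eq]
    exact Equiv.ext fun τ => (e τ).symm
  exact hs.image_of_equiv p (measurePreserving_smul_GL w⁻¹).quasiMeasurePreserving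
    { toFun := fun h => ⟨p⁻¹ * h * p, h1 _ h.2⟩
      invFun := fun h => ⟨p * h * p⁻¹, h2 _ h.2⟩
      left_inv := fun h => Subtype.ext (by simp [mul_assoc])
      right_inv := fun h => Subtype.ext (by simp [mul_assoc]) }
    fun h τ => p.apply_symm_apply _

/-- The good Hecke operators are self-adjoint. -/
theorem pet_heckeTLin {ℓ : ℕ} (hℓ : ℓ.Prime) (hℓN : ¬ ℓ ∣ N) (f g : CuspForm (Gamma0 N) 2) :
    pet (CuspForm.heckeTLin 2 hℓ hℓN f) g = pet f (CuspForm.heckeTLin 2 hℓ hℓN g) := by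
  haveI : NeZero (N * ℓ) := ⟨mul_ne_zero (NeZero.ne N) hℓ.ne_zero⟩
  obtain ⟨ρ, hρ, huni, hslash⟩ := exists_reps hℓ hℓN
  obtain ⟨u, v, huv⟩ := exists_uv hℓ hℓN
  set α := heckeDiagMatrix ℓ with hα
  set D := ⋃ i, (fun τ : ℍ => ρ i • τ) '' dom N with hD
  obtain ⟨hfund, hdisj⟩ := isFundamentalDomain_iUnion (Γ := Gamma0 N) (Γ' := Gamma0 (N * ℓ))
    (fun x hx => mem_Gamma0_iff_dvd.mpr ((Int.natCast_dvd_natCast.mpr (dvd_mul_right N ℓ)).trans
      (mem_Gamma0_iff_dvd.mp hx))) (neg_one_mem_Gamma0 _) (isFundamentalDomain_dom N) ρ hρ huni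
  rw [← hD] at hfund
  let up : CuspForm (Gamma0 N) 2 → CuspForm (Gamma0 (N * ℓ)) 2 :=
    Newform.degen ℓ hℓ.pos dvd_rfl
  have hup : ∀ f, ⇑(up f) = ⇑f ∣[(2 : ℤ)] α := Newform.coe_degen ℓ hℓ.pos dvd_rfl
  have hvol : ∀ i, volume ((fun τ : ℍ => ρ i • τ) '' dom N) < ⊤ := fun i => by
    rw [volume_image_smul]; exact volume_dom_lt_top N
  -- integration over the larger domain computes the Hecke operator
  have trace : ∀ f g : CuspForm (Gamma0 N) 2,
      ∫ τ in D, petersson 2 (up f) g τ = pet (CuspForm.heckeTLin 2 hℓ hℓN f) g := by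
    intro f g
    rw [hD, integral_iUnion_ae (fun i => ?_) hdisj
      (integrableOn_finite_iUnion.mpr fun i => integrableOn_petersson _ _ (hvol i)), tsum_fintype]
    swap
    · exact (isFundamentalDomain_dom N).nullMeasurableSet_smul
        (⟨act (ρ i), Subgroup.mem_map_of_mem _ (hρ i)⟩ : pGroup (Gamma0 N))
    have e : ∀ i, ∫ τ in (fun τ : ℍ => ρ i • τ) '' dom N, petersson 2 (up f) g τ =
        ∫ τ in dom N, petersson 2 (⇑f ∣[(2 : ℤ)] repGL ℓ i) g τ := fun i => by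
      rw [(measurePreserving_smul_SL (ρ i)).setIntegral_image_emb
        (measurableEmbedding_const_smul ((ρ i : SL(2, ℤ)) : GL (Fin 2) ℝ))]
      congr 1
      ext τ
      rw [← petersson_slash_SL, hup, hslash, slash_Gamma0 g (hρ i)]
    simp only [e]
    rw [← integral_finsetSum, pet]
    · congr 1
      ext τ
      simp only [petersson, CuspForm.coe_heckeTLin_apply, Newform.heckeT_eq_sum, Finset.sum_apply,
        map_sum, Finset.sum_mul]
    · intro i _
      refine ((measurePreserving_smul_SL (ρ i)).integrableOn_image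
        (measurableEmbedding_const_smul ((ρ i : SL(2, ℤ)) : GL (Fin 2) ℝ))).mp
        (integrableOn_petersson (up f) g (hvol i)) |>.congr (Filter.Eventually.of_forall fun τ => ?_)
      show petersson 2 (up f) g (ρ i • τ) = _
      rw [← petersson_slash_SL, hup, hslash, slash_Gamma0 g (hρ i)]
  -- the normaliser
  let W : IMat := !![(ℓ : ℤ) * u, v; ℓ * N, ℓ]
  have hW : W.det = ℓ := by
    simp only [W, Matrix.det_fin_two_of]; linear_combination (ℓ : ℤ) * huv
  have hWpos : 0 < W.det := by rw [hW]; exact_mod_cast hℓ.pos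
  let ρ₀ : SL(2, ℤ) := ⟨!![u, v; (N : ℤ), ℓ], by
    rw [Matrix.det_fin_two_of]; linear_combination huv⟩
  let γ₀ : SL(2, ℤ) := ⟨!![ℓ * u, v; (N : ℤ), 1], by
    rw [Matrix.det_fin_two_of]; linear_combination huv⟩
  set w : GL (Fin 2) ℝ := intGL W with hw
  have hd : (!![(ℓ : ℤ), 0; 0, 1] : IMat).det ≠ 0 := by simp [Matrix.det_fin_two, hℓ.ne_zero]
  have hwα : ∀ f : CuspForm (Gamma0 N) 2, ⇑f ∣[(2 : ℤ)] w = ⇑f ∣[(2 : ℤ)] α := fun f => by
    have e : W = (ρ₀ : IMat) * !![(ℓ : ℤ), 0; 0, 1] := by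
      ext a b
      fin_cases a <;> fin_cases b <;> simp [W, ρ₀, Matrix.mul_apply, Fin.sum_univ_two] <;> ring
    rw [hw, e, intGL_mul (by rw [ρ₀.det_coe]; exact one_ne_zero) hd, SlashAction.slash_mul,
      slash_intGL_coe, slash_Gamma0 f (mem_Gamma0_iff_dvd.mpr (by simp [ρ₀])), hα,
      Newform.heckeDiagMatrix_eq_intGL hℓ.ne_zero]
  have hsd : (!![(ℓ : ℤ), 0; 0, (ℓ : ℤ)] : IMat).det ≠ 0 := by simp [hℓ.ne_zero]
  have hαw : ∀ f : CuspForm (Gamma0 N) 2, (⇑f ∣[(2 : ℤ)] α) ∣[(2 : ℤ)] w = ⇑f := fun f => by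
    have e : (!![(ℓ : ℤ), 0; 0, 1] : IMat) * W = (γ₀ : IMat) * (!![(ℓ : ℤ), 0; 0, (ℓ : ℤ)] : IMat) := by
      ext a b
      fin_cases a <;> fin_cases b <;> simp [W, γ₀, Matrix.mul_apply, Fin.sum_univ_two] <;> ring
    rw [hα, Newform.heckeDiagMatrix_eq_intGL hℓ.ne_zero, hw, ← SlashAction.slash_mul,
      ← intGL_mul hd hWpos.ne', e, intGL_mul (by rw [γ₀.det_coe]; exact one_ne_zero) hsd,
      SlashAction.slash_mul, slash_intGL_coe, slash_Gamma0 f (mem_Gamma0_iff_dvd.mpr (by simp [γ₀])),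
      intGL_smul_slash hℓ.ne_zero]
  have hfundW : IsFundamentalDomain (pGroup (Gamma0 (N * ℓ))) ((fun τ : ℍ => w • τ) '' D) volume :=
    isFundamentalDomain_image hfund w (exists_conj huv hℓ.ne_zero)
  have swap : ∀ f g : CuspForm (Gamma0 N) 2,
      ∫ τ in D, petersson 2 (up f) g τ = ∫ τ in D, petersson 2 f (up g) τ := by
    intro f g
    rw [hfund.setIntegral_eq hfundW (fun h τ => ?_)]
    · rw [(measurePreserving_smul_GL w).setIntegral_image_emb (measurableEmbedding_const_smul w)]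
      congr 1
      ext τ
      have h2 := petersson_slash 2 (⇑(up f)) (⇑g) w τ
      rw [σ_intGL hWpos] at h2
      simpa [hup, hαw, hwα] using h2.symm
    · obtain ⟨γ, hγ, e⟩ := pGroup_exists h
      rw [e, ← petersson_slash_SL, slash_Gamma0 (up f) hγ, slash_Gamma0 g (mem_Gamma0_iff_dvd.mpr
        ((Int.natCast_dvd_natCast.mpr (dvd_mul_right N ℓ)).trans (mem_Gamma0_iff_dvd.mp hγ)))]
  rw [← trace, swap, pet_symm (CuspForm.heckeTLin 2 hℓ hℓN g) f, ← trace, ← integral_conj]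
  simp only [petersson_symm 2 (⇑(up g)) (⇑f)]

/-- The product is adjoint for every element of the algebra of good operators. -/
theorem pet_heckeAlgebra {S : Set ℕ} (hS : ∀ r : ℕ, r.Prime → r ∣ N → r ∈ S)
    {x : Module.End ℂ (CuspForm (Gamma0 N) 2)} (hx : x ∈ CuspForm.heckeAlgebra N 2 S)
    (f g : CuspForm (Gamma0 N) 2) : pet (x f) g = pet f (x g) := by
  induction hx using Algebra.adjoin_induction generalizing f g with
  | mem y hy =>
    rcases hy with ⟨ℓ, hℓ, hℓN, -, rfl⟩ | ⟨q, hqN, hq, hqS, rfl⟩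
    · exact pet_heckeTLin hℓ hℓN f g
    · exact absurd (hS q hq hqN) hqS
  | algebraMap n =>
    simpa [Algebra.algebraMap_eq_smul_one] using pet_smul_int n f g
  | add a b _ _ ha hb =>
    rw [LinearMap.add_apply, LinearMap.add_apply, pet_add_left, pet_add_right, ha, hb]
  | mul a b ha' hb' ha hb =>
    have hc : a * b = b * a := congrArg Subtype.val
      ((inferInstance : IsMulCommutative (CuspForm.heckeAlgebra N 2 S)).is_comm.comm
        ⟨a, ha'⟩ ⟨b, hb'⟩)
    rw [show (a * b) g = (b * a) g by rw [hc], Module.End.mul_apply, Module.End.mul_apply, ha, hb]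

end Fermat.Agent.Auto.Pet
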