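import Mathlib.Analysis.Complex.UpperHalfPlane.Measure
import Mathlib.Analysis.SpecialFunctions.ImproperIntegrals
import Mathlib.MeasureTheory.Group.FundamentalDomain
import Mathlib.MeasureTheory.Measure.Lebesgue.Complex
import Mathlib.MeasureTheory.Measure.Lebesgue.EqHaar
import Mathlib.MeasureTheory.Measure.OpenPos
import Mathlib.NumberTheory.Modular

/-!
Fundamental domains of finite index subgroups of the modular group, for the hyperbolic measure.
-/

set_option autoImplicit false

noncomputable section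

namespace Fermat.Agent.Auto.Pet

open UpperHalfPlane MeasureTheory Set
open Function (onFun)
open scoped MatrixGroups Pointwise Modular

instance instCountableModularGroup : Countable SL(2, ℤ) :=
  haveI : Countable (Matrix (Fin 2) (Fin 2) ℤ) := inferInstanceAs (Countable (Fin 2 → Fin 2 → ℤ))
  Subtype.countable

/-- The action of the modular group by permutations of the upper half-plane. -/
def act : SL(2, ℤ) →* Equiv.Perm ℍ := MulAction.toPermHom SL(2, ℤ) ℍ

@[simp] theorem act_apply (g : SL(2, ℤ)) (τ : ℍ) : act g τ = g • τ := rfl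

theorem measurePreserving_smul_GL (g : GL (Fin 2) ℝ) :
    MeasurePreserving (fun τ : ℍ => g • τ) volume volume :=
  measurePreserving_smul g volume

theorem measurePreserving_smul_SL (g : SL(2, ℤ)) :
    MeasurePreserving (fun τ : ℍ => g • τ) volume volume :=
  measurePreserving_smul_GL (g : GL (Fin 2) ℝ)

instance instIsOpenPosMeasureVolume : Measure.IsOpenPosMeasure (volume : Measure ℍ) := by
  haveI : Measure.IsOpenPosMeasure ((volume : Measure ℂ).comap UpperHalfPlane.coe) :=
    Measure.IsOpenPosMeasure.comap _ isOpenEmbedding_coe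
  rw [volume_def]
  refine (withDensity_absolutelyContinuous' ?_ ?_).isOpenPosMeasure
  · have h : Measurable fun z : ℍ => NNReal.mk z.im z.im_pos.le :=
      continuous_im.measurable.subtype_mk
    exact (((measurable_const : Measurable fun _ : ℍ => (1 : NNReal)).div h).pow_const
      2).coe_nnreal_ennreal.aemeasurable
  · exact Filter.Eventually.of_forall fun z => by simp [← NNReal.coe_eq_zero, z.im_ne_zero]

theorem volume_eq_zero_of_image {s : Set ℍ}
    (h : (volume : Measure ℂ) ((↑) '' s) = 0) : volume s = 0 := by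
  rw [volume_eq_lintegral]
  exact setLIntegral_measure_zero _ _ h

theorem volume_vertical (a : ℝ) : (volume : Measure ℂ) {z : ℂ | z.re = a} = 0 := by
  have h : {z : ℂ | z.re = a} = Complex.measurableEquivRealProd ⁻¹' ({a} ×ˢ univ) := by
    ext z; simp [Complex.measurableEquivRealProd_apply]
  rw [h, Complex.volume_preserving_equiv_real_prod.measure_preimage
    ((measurableSet_singleton a).prod .univ).nullMeasurableSet, Measure.volume_eq_prod,
    Measure.prod_prod]
  simp

theorem volume_fd_diff : volume (𝒟 \ 𝒟ᵒ) = 0 := by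
  refine volume_eq_zero_of_image (measure_mono_null (t := Metric.sphere (0 : ℂ) 1 ∪
    ({z : ℂ | z.re = 1/2} ∪ {z : ℂ | z.re = -1/2})) ?_ ?_)
  · rintro _ ⟨τ, ⟨⟨h1, h2⟩, h3⟩, rfl⟩
    by_cases h : 1 < Complex.normSq τ
    · right
      have : ¬ |τ.re| < 1/2 := fun h' => h3 ⟨h, h'⟩
      rcases abs_eq (by norm_num : (0:ℝ) ≤ 1/2) |>.mp (le_antisymm h2 (not_lt.mp this)) with e | e
      · exact Or.inl e
      · exact Or.inr (by simp [e]; norm_num)
    · left
      have : Complex.normSq τ = 1 := le_antisymm (not_lt.mp h) h1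
      simp [Complex.norm_def, this]
  · exact measure_union_null (Measure.addHaar_sphere _ _ _)
      (measure_union_null (volume_vertical _) (volume_vertical _))

theorem volume_fdo_lt_top : volume 𝒟ᵒ < ⊤ := by
  set S : Set (ℝ × ℝ) := Icc (-(1/2)) (1/2) ×ˢ Ioi (1/2 : ℝ) with hS
  have hsub : ((↑) '' 𝒟ᵒ : Set ℂ) ⊆ Complex.measurableEquivRealProd ⁻¹' S := by
    rintro _ ⟨τ, hτ, rfl⟩
    have h := ModularGroup.three_lt_four_mul_im_sq_of_mem_fdo hτ
    have := τ.im_pos
    simp only [hS, mem_preimage, Complex.measurableEquivRealProd_apply, mem_prod, mem_Ioi]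
    exact ⟨abs_le.mp hτ.2.le, show 1/2 < τ.im by nlinarith⟩
  rw [volume_eq_lintegral]
  refine lt_of_le_of_lt (lintegral_mono_set hsub) ?_
  have key := Complex.volume_preserving_equiv_real_prod.setLIntegral_comp_preimage_emb
    Complex.measurableEquivRealProd.measurableEmbedding
    (fun x : ℝ × ℝ => (((1 / ‖x.2‖₊) ^ 2 : NNReal) : ENNReal)) S
  simp only [Complex.measurableEquivRealProd_apply] at key
  rw [key, hS, Measure.volume_eq_prod, setLIntegral_prod _ (by fun_prop)]
  simp only [lintegral_const, Measure.restrict_apply MeasurableSet.univ, univ_inter, Real.volume_Icc]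
  refine ENNReal.mul_lt_top ?_ ENNReal.ofReal_lt_top
  have hint : IntegrableOn (fun y : ℝ => y ^ (-2 : ℝ)) (Ioi (1/2)) :=
    integrableOn_Ioi_rpow_of_lt (by norm_num) (by norm_num)
  refine lt_of_eq_of_lt (setLIntegral_congr_fun measurableSet_Ioi fun y hy => ?_) hint.2
  have hy0 : (0 : ℝ) < y := lt_trans (by norm_num) hy
  rw [← ENNReal.ofReal_coe_nnreal, Real.enorm_eq_ofReal (Real.rpow_nonneg hy0.le _)]
  congr 1
  rw [Real.rpow_neg hy0.le, Real.rpow_two]
  simp [abs_of_pos hy0]

/-! ## Groups of permutations -/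

/-- The image of a subgroup of the modular group in the permutations of `ℍ`. -/
abbrev pGroup (Γ : Subgroup SL(2, ℤ)) : Subgroup (Equiv.Perm ℍ) := Γ.map act

theorem pGroup_exists {Γ : Subgroup SL(2, ℤ)} (h : pGroup Γ) :
    ∃ g ∈ Γ, ∀ τ : ℍ, h • τ = g • τ := by
  obtain ⟨g, hg, e⟩ := h.2
  exact ⟨g, hg, fun τ => by rw [Subgroup.smul_def, Equiv.Perm.smul_def, ← e, act_apply]⟩

instance instCountablePGroup (Γ : Subgroup SL(2, ℤ)) : Countable (pGroup Γ) :=
  Function.Surjective.countable (MonoidHom.subgroupMap_surjective act Γ)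

instance instMeasurableConstSMulPGroup (Γ : Subgroup SL(2, ℤ)) :
    MeasurableConstSMul (pGroup Γ) ℍ where
  measurable_const_smul h := by
    obtain ⟨g, -, hg⟩ := pGroup_exists h
    exact funext hg ▸ (measurePreserving_smul_SL g).measurable

instance instSMulInvariantPGroup (Γ : Subgroup SL(2, ℤ)) :
    SMulInvariantMeasure (pGroup Γ) ℍ volume where
  measure_preimage_smul h s hs := by
    obtain ⟨g, -, hg⟩ := pGroup_exists h
    rw [show (fun τ : ℍ => h • τ) = fun τ => g • τ from funext hg]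
    exact (measurePreserving_smul_SL g).measure_preimage hs.nullMeasurableSet

theorem mem_fdo_two_I : UpperHalfPlane.mk (2 * Complex.I) (by simp) ∈ 𝒟ᵒ := by
  refine ⟨?_, ?_⟩
  · norm_num [Complex.normSq_apply]
  · simp [UpperHalfPlane.re]

theorem eq_of_act_eq_one {g : SL(2, ℤ)} (h : act g = 1) : g = 1 ∨ g = -1 := by
  refine ModularGroup.eq_one_or_neg_one_of_mem_fdo_mem_fdo mem_fdo_two_I ?_
  rw [← act_apply, h, Equiv.Perm.one_apply]
  exact mem_fdo_two_I

theorem act_mem_iff {Γ : Subgroup SL(2, ℤ)} (hΓ : -1 ∈ Γ) {g : SL(2, ℤ)} :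
    act g ∈ pGroup Γ ↔ g ∈ Γ := by
  refine ⟨fun ⟨γ, hγ, e⟩ => ?_, fun h => Subgroup.mem_map_of_mem _ h⟩
  have : act (γ⁻¹ * g) = 1 := by rw [map_mul, map_inv, e, inv_mul_cancel]
  rcases eq_of_act_eq_one this with h | h
  · rwa [← inv_mul_eq_one.mp h]
  · rw [inv_mul_eq_iff_eq_mul.mp h]
    exact mul_mem hγ hΓ

theorem act_neg_one : act (-1) = 1 := Equiv.ext fun τ => by simp

/-- The open standard domain is a fundamental domain of the modular group. -/
theorem isFundamentalDomain_fdo :
    IsFundamentalDomain (pGroup ⊤) 𝒟ᵒ (volume : Measure ℍ) := by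
  refine IsFundamentalDomain.mk'' ModularGroup.isOpen_fdo.measurableSet.nullMeasurableSet ?_ ?_
    fun h => (measurePreserving_smul h volume).quasiMeasurePreserving
  · have h0 : volume (⋃ g : SL(2, ℤ), (fun τ : ℍ => g • τ) ⁻¹' (𝒟 \ 𝒟ᵒ)) = 0 :=
      measure_iUnion_null fun g =>
        (measurePreserving_smul_SL g).quasiMeasurePreserving.preimage_null volume_fd_diff
    filter_upwards [compl_mem_ae_iff.mpr h0] with τ hτ
    obtain ⟨g, hg⟩ := ModularGroup.exists_smul_mem_fd τ
    refine ⟨⟨act g, Subgroup.mem_map_of_mem _ trivial⟩, ?_⟩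
    by_contra hn
    exact hτ (mem_iUnion.mpr ⟨g, hg, hn⟩)
  · intro h hne
    refine Disjoint.aedisjoint (Set.disjoint_left.mpr ?_)
    rintro _ ⟨τ, hτ, rfl⟩ hτ'
    obtain ⟨g, -, hg⟩ := pGroup_exists h
    simp only [hg] at hτ'
    apply hne
    refine Subtype.ext (Equiv.ext fun x => (hg x).trans ?_)
    rcases ModularGroup.eq_one_or_neg_one_of_mem_fdo_mem_fdo hτ hτ' with rfl | rfl <;> simp

/-- A fundamental domain of a subgroup from representatives. -/
theorem isFundamentalDomain_iUnion {Γ Γ' : Subgroup SL(2, ℤ)} (hle : Γ' ≤ Γ) (hneg : -1 ∈ Γ')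
    {s : Set ℍ} (hs : IsFundamentalDomain (pGroup Γ) s volume) {ι : Type*} [Countable ι]
    (ρ : ι → SL(2, ℤ)) (hρ : ∀ i, ρ i ∈ Γ) (huni : ∀ g ∈ Γ, ∃! i, ρ i * g ∈ Γ') :
    IsFundamentalDomain (pGroup Γ') (⋃ i, (fun τ : ℍ => ρ i • τ) '' s) volume ∧
      Pairwise (onFun (AEDisjoint (volume : Measure ℍ)) fun i => (fun τ : ℍ => ρ i • τ) '' s) := by
  let R : ι → pGroup Γ := fun i => ⟨act (ρ i), Subgroup.mem_map_of_mem _ (hρ i)⟩
  have himg : ∀ i, (fun τ : ℍ => ρ i • τ) '' s = R i • s := fun i => rfl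
  have hRinj : ∀ i j, R i = R j → i = j := fun i j e => by
    obtain ⟨k, -, hk⟩ := huni (ρ j)⁻¹ (inv_mem (hρ j))
    rw [hk i ((act_mem_iff hneg).mp (by
      rw [map_mul, show act (ρ i) = act (ρ j) from congrArg Subtype.val e, map_inv,
        mul_inv_cancel]; exact one_mem _)), hk j (by simp only [mul_inv_cancel]; exact one_mem _)]
  refine ⟨IsFundamentalDomain.mk'' (NullMeasurableSet.iUnion fun i => ?_) ?_ ?_
    fun h => (measurePreserving_smul h volume).quasiMeasurePreserving, fun i j hij => ?_⟩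
  · rw [himg]; exact hs.nullMeasurableSet_smul _
  · filter_upwards [hs.ae_covers] with τ ⟨h, hh⟩
    obtain ⟨g, hg, hgh⟩ := pGroup_exists h
    obtain ⟨i, hi, -⟩ := huni g hg
    refine ⟨⟨act (ρ i * g), Subgroup.mem_map_of_mem _ hi⟩, mem_iUnion.mpr ⟨i, g • τ, ?_, ?_⟩⟩
    · rwa [← hgh]
    · exact (mul_smul _ _ _).symm
  · intro h hne
    rw [smul_set_iUnion, AEDisjoint.iUnion_left_iff]
    intro i
    rw [AEDisjoint.iUnion_right_iff]
    intro j
    obtain ⟨g, hg, hgh⟩ := pGroup_exists h
    let hh : pGroup Γ := ⟨act g, Subgroup.mem_map_of_mem _ (hle hg)⟩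
    have e : h • ((fun τ : ℍ => ρ i • τ) '' s) = (hh * R i) • s := by
      rw [himg, mul_smul]
      exact image_congr' (fun x => hgh x)
    rw [e, himg]
    refine hs.aedisjoint fun hcon => hne ?_
    have e2 : act (ρ j) = act g * act (ρ i) := (congrArg Subtype.val hcon).symm
    obtain ⟨k, -, hk⟩ := huni (ρ j)⁻¹ (inv_mem (hρ j))
    have hj := hk j (by simp only [mul_inv_cancel]; exact one_mem _)
    have hi := hk i ((act_mem_iff hneg).mp (by
      rw [map_mul, map_inv, e2, mul_inv_rev, ← mul_assoc, mul_inv_cancel, one_mul, ← map_inv]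
      exact Subgroup.mem_map_of_mem _ (inv_mem hg)))
    rw [hi, ← hj] at e2
    have e3 : act g = 1 := by
      have := e2.symm
      rwa [mul_eq_right] at this
    exact Subtype.ext (Equiv.ext fun x => (hgh x).trans (by rw [← act_apply, e3]; rfl))
  · show AEDisjoint volume (R i • s) (R j • s)
    exact hs.aedisjoint fun e => hij (hRinj i j e)

end Fermat.Agent.Auto.Pet
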